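/-
P-CFT / RECIP-Q row 1001 (RQ-FIELD), helper94: the field `M = fieldM ℓ p`.
`fieldMStatement : Fermat.Agent.H25.Recip.FieldMStatement`.
-/
import Fermat.Agent.H25.Recip.Interfaces
import Fermat.Agent.H75.Inf2Galois
import Fermat.Agent.H94.Cft.CycloLevel

set_option autoImplicit false
set_option synthInstance.maxHeartbeats 400000
set_option maxHeartbeats 1600000

open ExtCitation

namespace Fermat.Agent.H94.Recip

open Fermat.Agent.H13.Cft Fermat.Agent.H78.CFT Fermat.Agent.H25.Recip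

attribute [local instance] Fermat.Agent.H75.Inf2.isGalois_rat_Qb

section Surj

variable (ℓ : ℕ) [Fact ℓ.Prime]

/-- the mod `ℓ` cyclotomic character of `G_ℚ` is surjective -/
theorem cycloChar_surjective : Function.Surjective (cycloChar ℓ) := by
  have hℓ : ℓ.Prime := Fact.out
  have : NeZero ℓ := ⟨hℓ.ne_zero⟩
  obtain ⟨ζ, hζ⟩ := HasEnoughRootsOfUnity.exists_primitiveRoot Qb ℓ
  intro a
  have hcop : Nat.Coprime (a : ZMod ℓ).val ℓ := ZMod.val_coe_unit_coprime a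
  have hζa : IsPrimitiveRoot (ζ ^ (a : ZMod ℓ).val) ℓ := hζ.pow_of_coprime _ hcop
  have h1 : minpoly ℚ ζ = minpoly ℚ (ζ ^ (a : ZMod ℓ).val) := by
    rw [← Polynomial.cyclotomic_eq_minpoly_rat hζ hℓ.pos,
      ← Polynomial.cyclotomic_eq_minpoly_rat hζa hℓ.pos]
  have halg : IsAlgebraic ℚ ζ := Algebra.IsAlgebraic.isAlgebraic ζ
  have hev : Polynomial.aeval (ζ ^ (a : ZMod ℓ).val) (minpoly ℚ ζ) = 0 := by
    rw [h1]
    exact minpoly.aeval ℚ _
  obtain ⟨σ, hσ⟩ := minpoly.exists_algEquiv_of_root' halg hev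
  refine ⟨σ, ?_⟩
  apply Units.ext
  have key := modularCyclotomicCharacter.unique (L := Qb)
    (card_rootsOfUnity_eq_self ℓ) (σ : Qb ≃+* Qb) (c := (a : ZMod ℓ)) (fun t ht => by
      have ht' : ((t : Qbˣ) : Qb) ^ ℓ = 1 := by
        have := (mem_rootsOfUnity _ _).mp ht
        rw [← Units.val_pow_eq_pow_val, this, Units.val_one]
      obtain ⟨i, -, hi⟩ := hζ.eq_pow_of_pow_eq_one ht'
      show σ (t : Qb) = _
      rw [← hi, map_pow, hσ, ← pow_mul, ← pow_mul, mul_comm])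
  exact key.symm

end Surj

section Field

variable (ℓ p : ℕ) [Fact ℓ.Prime]

/-- the subgroup of `p`-th powers of `(ℤ/ℓ)ˣ` -/
abbrev powSub : Subgroup (ZMod ℓ)ˣ := (powMonoidHom p : (ZMod ℓ)ˣ →* (ZMod ℓ)ˣ).range

theorem mem_powKer_iff (g : Qb ≃ₐ[ℚ] Qb) : g ∈ powKer ℓ p ↔ cycloChar ℓ g ∈ powSub ℓ p :=
  Iff.rfl

instance powKer_normal : (powKer ℓ p).Normal := by
  unfold powKer
  exact Subgroup.Normal.comap (Subgroup.normal_of_isMulCommutative _) _

/-- `powKer` contains the fixing subgroup of `ℚ(μ_ℓ)`, hence is open -/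
theorem powKer_isOpen : IsOpen ((powKer ℓ p : Subgroup (Qb ≃ₐ[ℚ] Qb)) : Set (Qb ≃ₐ[ℚ] Qb)) := by
  have hfin : Finite {t : AlgebraicClosure ℚ | t ^ ℓ = 1} :=
    (Fermat.Agent.H94.Cft.finite_rootsSet ℓ).to_subtype
  let K : IntermediateField ℚ Qb :=
    IntermediateField.adjoin ℚ {t : AlgebraicClosure ℚ | t ^ ℓ = 1}
  have hK : FiniteDimensional ℚ K := by
    have halg : Algebra.IsAlgebraic ℚ (AlgebraicClosure ℚ) := AlgebraicClosure.isAlgebraic ℚ
    exact IntermediateField.finiteDimensional_adjoin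
      (fun x _ => (Algebra.IsAlgebraic.isAlgebraic x).isIntegral)
  have hle : K.fixingSubgroup ≤ powKer ℓ p := by
    intro σ hσ
    rw [mem_powKer_iff]
    have h1 : cycloChar ℓ σ = 1 := by
      apply Fermat.Agent.H94.Cft.cycloChar_eq_one_of_fix
      intro t ht
      have ht' : t ∈ K := IntermediateField.subset_adjoin ℚ _ ht
      exact (IntermediateField.mem_fixingSubgroup_iff _ σ).mp hσ t ht'
    rw [h1]
    exact Subgroup.one_mem _
  exact Subgroup.isOpen_mono hle (IntermediateField.fixingSubgroup_isOpen K)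

theorem powKer_isClosed :
    IsClosed ((powKer ℓ p : Subgroup (Qb ≃ₐ[ℚ] Qb)) : Set (Qb ≃ₐ[ℚ] Qb)) :=
  Subgroup.isClosed_of_isOpen _ (powKer_isOpen ℓ p)

theorem fixingSubgroup_fieldM : (fieldM ℓ p).fixingSubgroup = powKer ℓ p :=
  InfiniteGalois.fixingSubgroup_fixedField
    (⟨powKer ℓ p, powKer_isClosed ℓ p⟩ : ClosedSubgroup (Qb ≃ₐ[ℚ] Qb))

theorem finiteDimensional_fieldM : FiniteDimensional ℚ (fieldM ℓ p) := by
  rw [← InfiniteGalois.isOpen_iff_finite]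
  show IsOpen (((fieldM ℓ p).fixingSubgroup : Subgroup (Qb ≃ₐ[ℚ] Qb)) : Set (Qb ≃ₐ[ℚ] Qb))
  rw [fixingSubgroup_fieldM]
  exact powKer_isOpen ℓ p

theorem isGalois_fieldM : IsGalois ℚ (fieldM ℓ p) := by
  have h : ((fieldM ℓ p).fixingSubgroup).Normal := by
    rw [fixingSubgroup_fieldM]
    exact powKer_normal ℓ p
  exact (InfiniteGalois.normal_iff_isGalois (fieldM ℓ p)).mp h

/-- the identity `fieldM → fieldM0` -/
noncomputable def fieldMEquiv : fieldM ℓ p ≃ₐ[ℚ] fieldM0 ℓ p where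
  toFun x := ⟨x.1, x.2⟩
  invFun x := ⟨x.1, x.2⟩
  left_inv _ := rfl
  right_inv _ := rfl
  map_mul' _ _ := rfl
  map_add' _ _ := rfl
  commutes' _ := rfl

theorem finiteDimensional_fieldM0 : FiniteDimensional Q0 (fieldM0 ℓ p) := by
  have := finiteDimensional_fieldM ℓ p
  have : FiniteDimensional ℚ (fieldM0 ℓ p) :=
    Module.Finite.equiv (fieldMEquiv ℓ p).toLinearEquiv
  exact Module.Finite.right ℚ Q0 (fieldM0 ℓ p)

theorem isGalois_fieldM0 : IsGalois Q0 (fieldM0 ℓ p) := by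
  have := isGalois_fieldM ℓ p
  have : IsGalois ℚ (fieldM0 ℓ p) := IsGalois.of_algEquiv (fieldMEquiv ℓ p)
  exact IsGalois.tower_top_of_isGalois ℚ Q0 (fieldM0 ℓ p)

/-- the kernel of restriction to `M` is cut out by `p`-th powers of the cyclotomic character -/
theorem resEF_fieldM0_eq_one_iff [Normal Q0 (fieldM0 ℓ p)] (g : Q0.fixingSubgroup) :
    resEF Q0 (fieldM0 ℓ p) g = 1 ↔ cycloChar ℓ (g : Qb ≃ₐ[ℚ] Qb) ∈ powSub ℓ p := by
  rw [Fermat.Agent.H75.Inf2.resEF_eq_one_iff, ← mem_powKer_iff, ← fixingSubgroup_fieldM,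
    IntermediateField.mem_fixingSubgroup_iff]
  constructor
  · intro h x hx
    exact h ⟨x, hx⟩
  · intro h x
    exact h x.1 x.2

/-- the cyclotomic character restricted to `G_{Q0}` -/
noncomputable def cycloQ0 : Q0.fixingSubgroup →* (ZMod ℓ)ˣ :=
  (cycloChar ℓ).comp (Subgroup.subtype _)

theorem cycloQ0_apply (g : Q0.fixingSubgroup) :
    cycloQ0 ℓ g = cycloChar ℓ (g : Qb ≃ₐ[ℚ] Qb) := rfl

theorem cycloQ0_surjective : Function.Surjective (cycloQ0 ℓ) := by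
  intro a
  obtain ⟨σ, hσ⟩ := cycloChar_surjective ℓ a
  have hmem : σ ∈ (Q0 : IntermediateField ℚ Qb).fixingSubgroup := by
    rw [IntermediateField.fixingSubgroup_bot]
    exact Subgroup.mem_top σ
  exact ⟨⟨σ, hmem⟩, hσ⟩

theorem ker_resEF_fieldM0 [Normal Q0 (fieldM0 ℓ p)] :
    (resEF Q0 (fieldM0 ℓ p)).ker = (powSub ℓ p).comap (cycloQ0 ℓ) := by
  ext g
  rw [MonoidHom.mem_ker, resEF_fieldM0_eq_one_iff, Subgroup.mem_comap, cycloQ0_apply]

theorem index_powSub [Fact p.Prime] (hp : p ∣ ℓ - 1) : (powSub ℓ p).index = p := by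
  have hℓ : ℓ.Prime := Fact.out
  rw [IsCyclic.index_powMonoidHom_range, Nat.card_eq_fintype_card, ZMod.card_units_eq_totient,
    Nat.totient_prime hℓ]
  exact Nat.gcd_eq_right hp

theorem card_aut_fieldM0 [Fact p.Prime] [Normal Q0 (fieldM0 ℓ p)] (hp : p ∣ ℓ - 1) :
    Nat.card (fieldM0 ℓ p ≃ₐ[Q0] fieldM0 ℓ p) = p := by
  have h1 : (resEF Q0 (fieldM0 ℓ p)).ker.index = Nat.card (fieldM0 ℓ p ≃ₐ[Q0] fieldM0 ℓ p) := by
    rw [Subgroup.index_ker, MonoidHom.range_eq_top.mpr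
      (Fermat.Agent.H75.Inf2.resEF_surjective Q0 (fieldM0 ℓ p))]
    exact Nat.card_congr (Subgroup.topEquiv).toEquiv
  rw [← h1, ker_resEF_fieldM0, Subgroup.index_comap_of_surjective _ (cycloQ0_surjective ℓ),
    index_powSub ℓ p hp]

theorem finrank_fieldM0 [Fact p.Prime] (hp : p ∣ ℓ - 1) :
    haveI := finiteDimensional_fieldM0 ℓ p
    haveI := isGalois_fieldM0 ℓ p
    Module.finrank Q0 (fieldM0 ℓ p) = p := by
  have := finiteDimensional_fieldM0 ℓ p
  have := isGalois_fieldM0 ℓ p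
  rw [← IsGalois.card_aut_eq_finrank]
  exact card_aut_fieldM0 ℓ p hp

/-- in `Multiplicative (ZMod p)` every `p`-th power is trivial -/
theorem multZMod_pow_eq_one (a : Multiplicative (ZMod p)) : a ^ p = 1 := by
  have h : a ^ p = Multiplicative.ofAdd (p • Multiplicative.toAdd a) := rfl
  rw [h, nsmul_eq_mul, ZMod.natCast_self, zero_mul]
  rfl

/-- a surjective character `(ℤ/ℓ)ˣ → ℤ/p` has kernel the `p`-th powers -/
theorem ker_eq_powSub [Fact p.Prime] (hp : p ∣ ℓ - 1)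
    (κ : (ZMod ℓ)ˣ →* Multiplicative (ZMod p)) (hκ : Function.Surjective κ) :
    κ.ker = powSub ℓ p := by
  have hpp : p.Prime := Fact.out
  have hle : powSub ℓ p ≤ κ.ker := by
    rintro x ⟨y, rfl⟩
    rw [MonoidHom.mem_ker, powMonoidHom_apply, map_pow]
    exact multZMod_pow_eq_one p _
  have hidx : κ.ker.index = p := by
    rw [Subgroup.index_ker, MonoidHom.range_eq_top.mpr hκ]
    rw [Nat.card_congr (Subgroup.topEquiv).toEquiv, Nat.card_congr Multiplicative.toAdd,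
      Nat.card_zmod]
  have h1 := Subgroup.relIndex_mul_index hle
  rw [hidx, index_powSub ℓ p hp] at h1
  have h2 : (powSub ℓ p).relIndex κ.ker = 1 := by
    have hpos : 0 < p := hpp.pos
    exact Nat.eq_of_mul_eq_mul_right hpos (by rw [h1, one_mul])
  exact le_antisymm (Subgroup.relIndex_eq_one.mp h2) hle

theorem fieldM_generator [Fact p.Prime] [Normal Q0 (fieldM0 ℓ p)] (hp : p ∣ ℓ - 1)
    (κ : (ZMod ℓ)ˣ →* Multiplicative (ZMod p)) (hκ : Function.Surjective κ) :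
    ∃ σ : fieldM0 ℓ p ≃ₐ[Q0] fieldM0 ℓ p,
      (∀ τ : fieldM0 ℓ p ≃ₐ[Q0] fieldM0 ℓ p, τ ∈ Subgroup.zpowers σ) ∧ orderOf σ = p ∧
      ∀ g : Q0.fixingSubgroup,
        resEF Q0 (fieldM0 ℓ p) g =
          σ ^ (Multiplicative.toAdd (κ (cycloChar ℓ (g : Qb ≃ₐ[ℚ] Qb)))).val := by
  have hpp : p.Prime := Fact.out
  have : NeZero p := ⟨hpp.ne_zero⟩
  obtain ⟨u, hu⟩ := hκ (Multiplicative.ofAdd (1 : ZMod p))
  obtain ⟨g₁, hg₁⟩ := cycloQ0_surjective ℓ u
  have hker := ker_eq_powSub ℓ p hp κ hκ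
  have hform : ∀ g : Q0.fixingSubgroup,
      resEF Q0 (fieldM0 ℓ p) g =
        (resEF Q0 (fieldM0 ℓ p) g₁) ^
          (Multiplicative.toAdd (κ (cycloChar ℓ (g : Qb ≃ₐ[ℚ] Qb)))).val := by
    intro g
    set k := (Multiplicative.toAdd (κ (cycloChar ℓ (g : Qb ≃ₐ[ℚ] Qb)))).val with hk
    have h1 : resEF Q0 (fieldM0 ℓ p) ((g₁ ^ k)⁻¹ * g) = 1 := by
      rw [resEF_fieldM0_eq_one_iff, ← hker, MonoidHom.mem_ker, ← cycloQ0_apply, map_mul,
        map_inv, map_pow, map_mul, map_inv, map_pow, hg₁, hu, cycloQ0_apply]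
      rw [inv_mul_eq_one]
      apply Multiplicative.toAdd.injective
      rw [toAdd_pow, toAdd_ofAdd, nsmul_eq_mul, mul_one, hk, ZMod.natCast_zmod_val]
    rw [map_mul, map_inv, map_pow, inv_mul_eq_one] at h1
    exact h1.symm
  refine ⟨resEF Q0 (fieldM0 ℓ p) g₁, ?_, ?_, hform⟩
  · intro τ
    obtain ⟨g, rfl⟩ := Fermat.Agent.H75.Inf2.resEF_surjective Q0 (fieldM0 ℓ p) τ
    rw [hform g]
    exact Subgroup.npow_mem_zpowers _ _
  · have hall : ∀ τ : fieldM0 ℓ p ≃ₐ[Q0] fieldM0 ℓ p,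
        τ ∈ Subgroup.zpowers (resEF Q0 (fieldM0 ℓ p) g₁) := by
      intro τ
      obtain ⟨g, rfl⟩ := Fermat.Agent.H75.Inf2.resEF_surjective Q0 (fieldM0 ℓ p) τ
      rw [hform g]
      exact Subgroup.npow_mem_zpowers _ _
    rw [orderOf_eq_card_of_forall_mem_zpowers hall]
    exact card_aut_fieldM0 ℓ p hp

end Field

/-- **[RQ-FIELD]** the field `M = fieldM ℓ p` is cyclic of degree `p` over `ℚ`, with Galois
group `(ℤ/ℓ)ˣ / p`-th powers through the cyclotomic character. -/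
theorem fieldMStatement : Fermat.Agent.H25.Recip.FieldMStatement := by
  intro p ℓ _ _ hp
  refine ⟨finiteDimensional_fieldM ℓ p, isGalois_fieldM ℓ p, finiteDimensional_fieldM0 ℓ p,
    isGalois_fieldM0 ℓ p, finrank_fieldM0 ℓ p hp, ?_⟩
  intro κ hκ
  have := isGalois_fieldM0 ℓ p
  exact fieldM_generator ℓ p hp κ hκ

end Fermat.Agent.H94.Recip
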